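import Fermat.Agent.GAL.RED.Modular
import Fermat.Agent.GAL.Igusa.Main
import Fermat.Agent.GAL.Hecke.Defs

/-!
# GAL-INJ: `Hecke.INJ M m A` at neat levels `M`, from GAL-RED (`inj_modular`) and GAL-IGUSA
(`genusFF_eq`, `isFF_E`, `modularFunctionFieldBar_eq`).
-/

set_option autoImplicit false

namespace Fermat.Agent.GAL.INJ

open AlgebraicCurve ModularCurve Fermat.Agent.Lib.RR Fermat.Agent.S24

/-- INJ for an intermediate field equal to `modularFunctionFieldFullC Kbar M`. -/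
theorem inj_aux (A : ValuationSubring Kbar) (M : ℕ) [NeZero M]
    (hM : ((M : ℕ) : IsLocalRing.ResidueField ↥A) ≠ 0)
    (hg : genusFF Kbar ↥(modularFunctionFieldFullC Kbar M) =
      genusFF (IsLocalRing.ResidueField ↥A)
        ↥(modularFunctionFieldFullC (IsLocalRing.ResidueField ↥A) M))
    (m : ℕ) (hm : (m : IsLocalRing.ResidueField ↥A) ≠ 0)
    (E' : IntermediateField Kbar (LaurentSeries Kbar))
    (hE : E' = modularFunctionFieldFullC Kbar M)
    (P Q : LaurentSeries A) (hP : Hecke.incl A P ∈ E') (hQ : Hecke.incl A Q ∈ E')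
    (hPQ : Hecke.red A P = Hecke.red A Q) (hQ0 : Hecke.red A Q ≠ 0)
    (u : (↥E')ˣ) (hu : ((u : ↥E') : LaurentSeries Kbar) * Hecke.incl A Q = Hecke.incl A P)
    (hk : u ∈ kummerUnits Kbar ↥E' m) : ∃ y : (↥E')ˣ, y ^ m = u := by
  subst hE
  haveI := Igusa.isAlgClosed_residueField A
  have hMK : ((M : ℕ) : Kbar) ≠ 0 := Nat.cast_ne_zero.mpr (NeZero.ne M)
  haveI := Igusa.isFF_E Kbar M hMK
  haveI := Igusa.isFF_E (IsLocalRing.ResidueField ↥A) M hM
  have hQne : (⟨Hecke.incl A Q, hQ⟩ : ↥(modularFunctionFieldFullC Kbar M)) ≠ 0 := by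
    intro h
    have h1 : Hecke.incl A Q = 0 := congrArg Subtype.val h
    have h2 : Q = 0 := Hecke.incl_injective A (by rw [h1, map_zero])
    exact hQ0 (by rw [h2, map_zero])
  have hueq : (u : ↥(modularFunctionFieldFullC Kbar M)) =
      (⟨Hecke.incl A P, hP⟩ : ↥(modularFunctionFieldFullC Kbar M)) / ⟨Hecke.incl A Q, hQ⟩ := by
    rw [eq_div_iff hQne]
    exact Subtype.ext hu
  obtain ⟨w, hw⟩ := RED.inj_modular A M hM hg m hm ⟨Hecke.incl A P, hP⟩ ⟨Hecke.incl A Q, hQ⟩ P Q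
    rfl rfl hQ0 hPQ (fun v => by rw [← hueq]; exact hk v)
  have hm0 : m ≠ 0 := by
    rintro rfl
    exact hm (by simp)
  have hw0 : w ≠ 0 := by
    rintro rfl
    rw [zero_pow hm0, ← hueq] at hw
    exact u.ne_zero hw
  refine ⟨Units.mk0 w hw0, Units.ext ?_⟩
  rw [Units.val_pow_eq_pow_val, Units.val_mk0, ← hw, hueq]

/-- **INJ at neat levels.** -/
theorem hecke_INJ_neat (hU : Igusa.CuspUpper) (hL : Igusa.CuspLower) (A : ValuationSubring Kbar)
    (M : ℕ) [NeZero M] (hM : ((M : ℕ) : IsLocalRing.ResidueField ↥A) ≠ 0)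
    (hneat : 4 ∣ M ∨ 9 ∣ M) (m : ℕ) (hm : (m : IsLocalRing.ResidueField ↥A) ≠ 0) :
    Hecke.INJ M m A := by
  intro P Q hP hQ hPQ hQ0 u hu hk
  exact inj_aux A M hM (Igusa.genusFF_eq hU hL A M hM hneat).symm m hm
    (modularFunctionFieldBar M) (Igusa.modularFunctionFieldBar_eq M) P Q hP hQ hPQ hQ0 u hu hk

end Fermat.Agent.GAL.INJ
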