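import Mathlib

/-!
# The residue field of a valuation subring of an algebraically closed field is algebraically closed.
-/

set_option autoImplicit false

namespace Fermat.Agent.GAL.INJ

theorem isAlgClosed_residueField {K : Type*} [Field K] [IsAlgClosed K] (A : ValuationSubring K) :
    IsAlgClosed (IsLocalRing.ResidueField ↥A) := by
  apply IsAlgClosed.of_exists_root
  intro p hp hirr
  obtain ⟨P, hPmap, hPdeg, hPmonic⟩ :=
    Polynomial.lifts_and_natDegree_eq_and_monic
      (f := IsLocalRing.residue ↥A)
      ((Polynomial.mem_lifts p).mpr (Polynomial.map_surjective _ IsLocalRing.residue_surjective p))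
      hp
  have hdeg : (P.map (algebraMap ↥A K)).degree ≠ 0 := by
    rw [hPmonic.degree_map, Polynomial.degree_eq_natDegree hPmonic.ne_zero, hPdeg]
    have := hirr.natDegree_pos
    intro h
    have h' : p.natDegree = 0 := by exact_mod_cast h
    omega
  obtain ⟨x, hx⟩ := IsAlgClosed.exists_root (P.map (algebraMap ↥A K)) hdeg
  have hint : IsIntegral ↥A x := ⟨P, hPmonic, by
    rwa [Polynomial.IsRoot.def, Polynomial.eval_map] at hx⟩
  obtain ⟨y, rfl⟩ := IsIntegrallyClosed.isIntegral_iff.mp hint
  refine ⟨IsLocalRing.residue ↥A y, ?_⟩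
  rw [← hPmap, Polynomial.eval_map, Polynomial.eval₂_hom]
  have : P.eval y = 0 := by
    rw [Polynomial.IsRoot.def, Polynomial.eval_map, Polynomial.eval₂_hom] at hx
    exact (FaithfulSMul.algebraMap_injective ↥A K) (by rw [hx, map_zero])
  rw [this, map_zero]

end Fermat.Agent.GAL.INJ
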