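import Fermat.Agent.GAL.INJ.DescentAbs
import Fermat.Agent.GAL.INJ.ResAlgClosed
import Fermat.Agent.GAL.Igusa.Tower
import Fermat.Agent.GAL.Igusa.LevelDeg
import Fermat.Agent.GAL.Hecke.KummerNorm
import Fermat.Agent.GAL.Hecke.Defs
import Fermat.Agent.GAL.Gauss.Main

/-!
# GAL-INJ: level descent `INJ M m A → INJ N m A` for `N ∣ M`, `ℓ ∤ M m`

No good reduction of `X₀(N)` is needed: `u ∈ F_N`, `m ∣ div u`, `ū = 1`. Then `u = y ^ m` with
`y ∈ F_M` by `INJ M`, and `y ∈ F_N` by `descent_abstract` because the Gauss valuation has full residue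
degree in `F_M / F_N` (`[F_M : F_N] = ψ(M)/ψ(N) = [F̄_M : F̄_N]`).
-/

set_option autoImplicit false

noncomputable section

namespace Fermat.Agent.GAL.INJ

open AlgebraicCurve ModularCurve Fermat.Agent.S24 Fermat.Agent.GAL.Gauss Module

section Tower

variable (k : Type) [Field k] {N M : ℕ} [NeZero N] [NeZero M] (h : N ∣ M)

/-- the relative degree of the level `M` field over the level `N` field. -/
def relDeg : ℕ :=
  letI := Igusa.towerAlgebra k h
  finrank (Igusa.E k N) (Igusa.E k M)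

theorem relDeg_mul (hM : ((M : ℕ) : k) ≠ 0) : relDeg k h * dedekindPsi N = dedekindPsi M :=
  (Igusa.tower_spec k h hM).2.2.2.2

include h in
theorem natCast_ne_zero_of_dvd (hM : ((M : ℕ) : k) ≠ 0) : ((N : ℕ) : k) ≠ 0 := by
  obtain ⟨c, rfl⟩ := h
  intro h0
  apply hM
  rw [Nat.cast_mul, h0, zero_mul]

theorem dedekindPsi_pos' (hN : ((N : ℕ) : k) ≠ 0) : 0 < dedekindPsi N := by
  rw [← Igusa.finrank_jb k N hN]
  haveI := Igusa.finiteDimensional_jb k N hN
  exact Module.finrank_pos

/-- any `relDeg + 1` elements of the level `M` field are dependent over the level `N` field. -/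
theorem dep_tower (hM : ((M : ℕ) : k) ≠ 0)
    (w : Fin (relDeg k h + 1) → LaurentSeries k) (hw : ∀ i, w i ∈ modularFunctionFieldFullC k M) :
    ∃ c : Fin (relDeg k h + 1) → LaurentSeries k,
      (∀ i, c i ∈ (modularFunctionFieldFullC k N).toSubfield) ∧ c ≠ 0 ∧ ∑ i, c i * w i = 0 := by
  classical
  letI := Igusa.towerAlgebra k h
  obtain ⟨-, -, hfd, -, -⟩ := Igusa.tower_spec k h hM
  have hdep : ¬ LinearIndependent (Igusa.E k N) (fun i => (⟨w i, hw i⟩ : Igusa.E k M)) := by
    intro hli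
    have := hli.fintype_card_le_finrank
    rw [Fintype.card_fin] at this
    have h2 : finrank (Igusa.E k N) ↥(modularFunctionFieldFullC k M) = relDeg k h := rfl
    omega
  rw [Fintype.not_linearIndependent_iff] at hdep
  obtain ⟨g, hg, i0, hi0⟩ := hdep
  refine ⟨fun i => (g i : LaurentSeries k), fun i => (g i).2, ?_, ?_⟩
  · intro h'
    apply hi0
    have := congrFun h' i0
    exact Subtype.ext this
  · have := congrArg (fun x : Igusa.E k M => (x : LaurentSeries k)) hg
    simp only [IntermediateField.coe_sum, IntermediateField.coe_zero] at this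
    rw [← this]
    rfl

/-- a basis of the level `M` field over the level `N` field. -/
theorem exists_indep_tower (hM : ((M : ℕ) : k) ≠ 0) :
    ∃ v : Fin (relDeg k h) → LaurentSeries k, (∀ i, v i ∈ modularFunctionFieldFullC k M) ∧
      ∀ c : Fin (relDeg k h) → LaurentSeries k,
        (∀ i, c i ∈ (modularFunctionFieldFullC k N).toSubfield) → ∑ i, c i * v i = 0 → c = 0 := by
  classical
  letI := Igusa.towerAlgebra k h
  obtain ⟨-, -, hfd, -, -⟩ := Igusa.tower_spec k h hM
  haveI : Module.Free (Igusa.E k N) (Igusa.E k M) := Module.Free.of_divisionRing _ _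
  let B : Basis (Fin (relDeg k h)) (Igusa.E k N) (Igusa.E k M) :=
    Module.finBasis (Igusa.E k N) (Igusa.E k M)
  refine ⟨fun i => (B i : LaurentSeries k), fun i => (B i).2, ?_⟩
  intro c hc hsum
  have hli := B.linearIndependent
  rw [Fintype.linearIndependent_iff] at hli
  have := hli (fun i => ⟨c i, hc i⟩) (by
    apply Subtype.ext
    simp only [IntermediateField.coe_sum, IntermediateField.coe_zero]
    rw [← hsum]
    rfl)
  funext i
  exact congrArg Subtype.val (this i)

end Tower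

section Concrete

variable {K : Type} [Field K] (A : ValuationSubring K)

/-- **Descent of `m`-th roots** along `F_N ⊆ F_M` for elements with residue `1`. -/
theorem mem_level_of_pow_mem {N M : ℕ} [NeZero N] [NeZero M] (hNM : N ∣ M)
    (hM : ((M : ℕ) : IsLocalRing.ResidueField ↥A) ≠ 0) (m : ℕ)
    (hm : (m : IsLocalRing.ResidueField ↥A) ≠ 0)
    (y : ↥(gRing A)) (hyM : (y : LaurentSeries K) ∈ modularFunctionFieldFullC K M)
    (hy1 : gRes A y = 1) (hym : (y : LaurentSeries K) ^ m ∈ modularFunctionFieldFullC K N) :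
    (y : LaurentSeries K) ∈ modularFunctionFieldFullC K N := by
  classical
  have hN := natCast_ne_zero_of_dvd (IsLocalRing.ResidueField ↥A) hNM hM
  have hMK := natCast_ne_zero_of_residue A M hM
  have hdeg : relDeg K hNM = relDeg (IsLocalRing.ResidueField ↥A) hNM :=
    Nat.eq_of_mul_eq_mul_right (dedekindPsi_pos' (IsLocalRing.ResidueField ↥A) hN)
      ((relDeg_mul K hNM hMK).trans (relDeg_mul (IsLocalRing.ResidueField ↥A) hNM hM).symm)
  have key := exists_indep_tower (IsLocalRing.ResidueField ↥A) hNM hM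
  rw [← hdeg] at key
  obtain ⟨v, hvM, hv⟩ := key
  choose z hzM hzv using fun i => gRes_surjective A M hM (v i) (hvM i)
  have hm' : ((m : ℕ) : LaurentSeries (IsLocalRing.ResidueField ↥A)) ≠ 0 := by
    rw [← map_natCast (HahnSeries.C : IsLocalRing.ResidueField ↥A →+* _), Ne, map_eq_zero]
    exact hm
  refine descent_abstract (gRing A) (gRes A) (fun x hx => inv_mem_gRing_of_gRes_ne_zero A x hx)
    (modularFunctionFieldFullC K N).toSubfield ?_
    (modularFunctionFieldFullC (IsLocalRing.ResidueField ↥A) N).toSubfield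
    (fun c hc => gRes_mem A N hN c hc)
    (modularFunctionFieldFullC K M : Set (LaurentSeries K)) (relDeg K hNM) z
    (fun w hw => dep_tower K hNM hMK w hw) hzM ?_ (one_mem _) m hm' y hyM hy1 hym
  · intro c hc
    rcases (OFK A N hN).mem_or_inv_mem ⟨c, hc⟩ with h1 | h1
    · exact Or.inl h1
    · exact Or.inr h1
  · intro c hc hsum
    apply hv c hc
    rw [← hsum]
    exact Finset.sum_congr rfl fun i _ => by rw [hzv]

end Concrete

section Final

theorem exists_C_of_pow_eq_one {k : Type*} [Field k] [IsAlgClosed k] (η : LaurentSeries k) (m : ℕ)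
    (hm : m ≠ 0) (h : η ^ m = 1) : ∃ c : k, η = HahnSeries.C c := by
  have hint : IsIntegral k η :=
    ⟨Polynomial.X ^ m - Polynomial.C 1, Polynomial.monic_X_pow_sub_C 1 hm, by simp [h]⟩
  have hdeg := IsAlgClosed.degree_eq_one_of_irreducible k (minpoly.irreducible hint)
  obtain ⟨c, hc⟩ := minpoly.mem_range_of_degree_eq_one k η hdeg
  exact ⟨c, by rw [← hc, algebraMap_eq_C]⟩

/-- the series-level core: an `m`-th root in the level `M` field of an element `u = P / Q` of the
level `N` field with `P ≡ Q ≢ 0` lies in the level `N` field. -/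
theorem root_mem_level {K : Type} [Field K] [IsAlgClosed K] (A : ValuationSubring K) {N M : ℕ}
    [NeZero N] [NeZero M] (hNM : N ∣ M)
    (hM : ((M : ℕ) : IsLocalRing.ResidueField ↥A) ≠ 0) (m : ℕ)
    (hm : (m : IsLocalRing.ResidueField ↥A) ≠ 0)
    (P Q : LaurentSeries ↥A) (hPQ : pA A P = pA A Q) (hQ0 : pA A Q ≠ 0)
    (u y : LaurentSeries K) (hu : u * iA A Q = iA A P)
    (huN : u ∈ modularFunctionFieldFullC K N) (hyM : y ∈ modularFunctionFieldFullC K M)
    (hyu : y ^ m = u) : y ∈ modularFunctionFieldFullC K N := by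
  haveI := isAlgClosed_residueField A
  have hm0 : m ≠ 0 := by
    rintro rfl
    exact hm (by simp)
  have hu' : iA A Q * u = iA A P := by rw [mul_comm]; exact hu
  have huG : u ∈ gRing A := (mem_gRing_iff A).mpr ⟨P, Q, hQ0, hu'⟩
  have hures : gRes A ⟨u, huG⟩ = 1 := by
    rw [gRes_eq A ⟨u, huG⟩ hQ0 hu', hPQ, div_self hQ0]
  have hu0 : u ≠ 0 := by
    rintro rfl
    have : (⟨0, huG⟩ : ↥(gRing A)) = 0 := rfl
    rw [this, map_zero] at hures
    exact zero_ne_one hures
  have hy0 : y ≠ 0 := by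
    rintro rfl
    rw [zero_pow hm0] at hyu
    exact hu0 hyu.symm
  -- `y` is Gauss integral
  have hyG : y ∈ gRing A := by
    rcases (OFK A M hM).mem_or_inv_mem ⟨y, hyM⟩ with h1 | h1
    · exact h1
    · have h2 : y⁻¹ ∈ gRing A := h1
      have h3 : y = u * y⁻¹ ^ (m - 1) := by
        obtain ⟨m', rfl⟩ := Nat.exists_eq_succ_of_ne_zero hm0
        rw [← hyu, Nat.succ_sub_one, pow_succ, inv_pow]
        field_simp
      rw [h3]
      exact (gRing A).mul_mem huG ((gRing A).pow_mem h2 _)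
  have hη : gRes A ⟨y, hyG⟩ ^ m = 1 := by
    rw [← map_pow, ← hures]
    congr 1
    exact Subtype.ext hyu
  obtain ⟨cbar, hcbar⟩ := exists_C_of_pow_eq_one _ m hm0 hη
  obtain ⟨c, rfl⟩ := IsLocalRing.residue_surjective cbar
  have hCc : HahnSeries.C (c : K) ∈ gRing A := (C_mem_gRing_iff A _).mpr c.2
  have hresC : gRes A ⟨_, hCc⟩ = gRes A ⟨y, hyG⟩ := by rw [gRes_C A c hCc, hcbar]
  have hη0 : gRes A ⟨y, hyG⟩ ≠ 0 := by
    intro h0
    rw [h0, zero_pow hm0] at hη
    exact zero_ne_one hη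
  have hCinv : (HahnSeries.C (c : K) : LaurentSeries K)⁻¹ ∈ gRing A :=
    inv_mem_gRing_of_gRes_ne_zero A ⟨_, hCc⟩ (by rw [hresC]; exact hη0)
  have hC0 : (HahnSeries.C (c : K) : LaurentSeries K) ≠ 0 := by
    intro h0
    apply hη0
    rw [← hresC]
    have : (⟨_, hCc⟩ : ↥(gRing A)) = 0 := Subtype.ext h0
    rw [this, map_zero]
  have hCmem : ∀ L : ℕ, (HahnSeries.C (c : K) : LaurentSeries K) ∈ modularFunctionFieldFullC K L := by
    intro L
    rw [← algebraMap_eq_C]
    exact IntermediateField.algebraMap_mem _ _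
  have hkey := mem_level_of_pow_mem A hNM hM m hm (⟨y, hyG⟩ * ⟨_, hCinv⟩)
    (mul_mem hyM (inv_mem (hCmem M)))
    (by rw [map_mul, gRes_inv A ⟨_, hCc⟩ hCinv, hresC, mul_inv_cancel₀ hη0])
    (by
      show (y * (HahnSeries.C (c : K) : LaurentSeries K)⁻¹) ^ m ∈ _
      rw [mul_pow, hyu]
      exact mul_mem huN (pow_mem (inv_mem (hCmem N)) m))
  have hfin : y = (y * (HahnSeries.C (c : K) : LaurentSeries K)⁻¹) * HahnSeries.C (c : K) := by
    rw [mul_assoc, inv_mul_cancel₀ hC0, mul_one]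
  rw [hfin]
  exact mul_mem hkey (hCmem N)

/-- `Hecke.INJ` for an arbitrary intermediate field. -/
def INJat (E' : IntermediateField Kbar (LaurentSeries Kbar)) (m : ℕ)
    (A : ValuationSubring Kbar) : Prop :=
  ∀ P Q : LaurentSeries A, Hecke.incl A P ∈ E' → Hecke.incl A Q ∈ E' →
    Hecke.red A P = Hecke.red A Q → Hecke.red A Q ≠ 0 →
    ∀ u : (↥E')ˣ, ((u : ↥E') : LaurentSeries Kbar) * Hecke.incl A Q = Hecke.incl A P →
      u ∈ kummerUnits Kbar ↥E' m → ∃ y : (↥E')ˣ, y ^ m = u

theorem INJat_descent (A : ValuationSubring Kbar) (N M : ℕ) [NeZero N] [NeZero M] (hNM : N ∣ M)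
    (hM : ((M : ℕ) : IsLocalRing.ResidueField A) ≠ 0) (m : ℕ)
    (hm : (m : IsLocalRing.ResidueField A) ≠ 0)
    (h : INJat (modularFunctionFieldFullC Kbar M) m A) :
    INJat (modularFunctionFieldFullC Kbar N) m A := by
  intro P Q hP hQ hPQ hQ0 u hu hk
  have hm0 : m ≠ 0 := by
    rintro rfl
    exact hm (by simp)
  have hMK := natCast_ne_zero_of_residue A M hM
  have hle : modularFunctionFieldFullC Kbar N ≤ modularFunctionFieldFullC Kbar M :=
    full_degeneracyC_le Kbar hNM
  let φ : ↥(modularFunctionFieldFullC Kbar N) →ₐ[Kbar] ↥(modularFunctionFieldFullC Kbar M) :=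
    IntermediateField.inclusion hle
  have hφ : φ.toRingHom.IsIntegral := by
    letI := Igusa.towerAlgebra Kbar hNM
    obtain ⟨-, -, hfd, -, -⟩ := Igusa.tower_spec Kbar hNM hMK
    intro x
    exact Algebra.IsIntegral.isIntegral (R := Igusa.E Kbar N) x
  have hk' := Hecke.map_mem_kummerUnits φ hφ hk
  obtain ⟨u', hu'⟩ : ∃ u' : (↥(modularFunctionFieldFullC Kbar M))ˣ, u' = Units.map
    (φ : ↥(modularFunctionFieldFullC Kbar N) →* ↥(modularFunctionFieldFullC Kbar M)) u := ⟨_, rfl⟩
  rw [← hu'] at hk'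
  have hcoe : ((u' : ↥(modularFunctionFieldFullC Kbar M)) : LaurentSeries Kbar) =
      ((u : ↥(modularFunctionFieldFullC Kbar N)) : LaurentSeries Kbar) := by
    rw [hu']; rfl
  clear_value φ
  clear hu'
  obtain ⟨y, hy⟩ := h P Q (hle hP) (hle hQ) hPQ hQ0 u' (by rw [hcoe]; exact hu) hk'
  have hyu : ((y : ↥(modularFunctionFieldFullC Kbar M)) : LaurentSeries Kbar) ^ m =
      ((u : ↥(modularFunctionFieldFullC Kbar N)) : LaurentSeries Kbar) := by
    rw [← hcoe, ← hy]
    rfl
  have hmem := root_mem_level A hNM hM m hm P Q hPQ hQ0 _ _ hu (u : ↥(modularFunctionFieldFullC Kbar N)).2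
    (y : ↥(modularFunctionFieldFullC Kbar M)).2 hyu
  have hy0 : (⟨_, hmem⟩ : ↥(modularFunctionFieldFullC Kbar N)) ≠ 0 := by
    intro h0
    have h1 : ((y : ↥(modularFunctionFieldFullC Kbar M)) : LaurentSeries Kbar) = 0 :=
      congrArg Subtype.val h0
    exact y.ne_zero (Subtype.ext h1)
  refine ⟨Units.mk0 _ hy0, Units.ext (Subtype.ext ?_)⟩
  exact hyu

/-- **Level descent of INJ** (task 294). -/
theorem hecke_INJ_descent (A : ValuationSubring Kbar) (N M : ℕ) [NeZero N] [NeZero M]
    (hNM : N ∣ M) (hM : ((M : ℕ) : IsLocalRing.ResidueField A) ≠ 0) (m : ℕ)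
    (hm : (m : IsLocalRing.ResidueField A) ≠ 0) (h : Hecke.INJ M m A) : Hecke.INJ N m A := by
  have h' : INJat (modularFunctionFieldBar M) m A := h
  rw [Igusa.modularFunctionFieldBar_eq M] at h'
  have h2 := INJat_descent A N M hNM hM m hm h'
  rw [← Igusa.modularFunctionFieldBar_eq N] at h2
  exact h2

end Final

end Fermat.Agent.GAL.INJ
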