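import Fermat.Agent.S28.D1a

/-!
# GAL-INJ: abstract level descent

`O ⊆ M` a "valuation ring" with residue map `ρ : O → Mk`; `E ⊆ M` a subfield on which `O` induces a
valuation ring, with `ρ (O ∩ E) ⊆ Ek`; `L ⊆ M` a set (the big field) of `E`-dimension `≤ n` having
`n` elements of `O` with `Ek`-independent residues ("full residue degree").

`descent_abstract`: if `y ∈ O ∩ L`, `ρ y = 1`, `y ^ m ∈ E` and `m ≠ 0` in `Mk`, then `y ∈ E`.
-/

set_option autoImplicit false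

namespace Fermat.Agent.GAL.INJ

theorem one_add_pow_expand {R : Type*} [CommRing R] (x : R) (m : ℕ) :
    ∃ r : R, (1 + x) ^ m = 1 + m * x + x ^ 2 * r := by
  induction m with
  | zero => exact ⟨0, by simp⟩
  | succ m ih =>
    obtain ⟨r, hr⟩ := ih
    exact ⟨r * (1 + x) + m, by rw [pow_succ, hr]; push_cast; ring⟩

theorem descent_abstract {M Mk : Type*} [Field M] [Field Mk] (O : Subring M) (ρ : ↥O →+* Mk)
    (hunit : ∀ x : ↥O, ρ x ≠ 0 → (x : M)⁻¹ ∈ O)
    (E : Subfield M) (hval : ∀ c ∈ E, c ∈ O ∨ c⁻¹ ∈ O)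
    (Ek : Subfield Mk) (hEk : ∀ c : ↥O, (c : M) ∈ E → ρ c ∈ Ek)
    (L : Set M) (n : ℕ) (z : Fin n → ↥O)
    (hspan : ∀ (w : Fin (n + 1) → M), (∀ i, w i ∈ L) →
      ∃ c : Fin (n + 1) → M, (∀ i, c i ∈ E) ∧ c ≠ 0 ∧ ∑ i, c i * w i = 0)
    (hzL : ∀ i, (z i : M) ∈ L)
    (hz : ∀ c : Fin n → Mk, (∀ i, c i ∈ Ek) → ∑ i, c i * ρ (z i) = 0 → c = 0)
    (h1L : (1 : M) ∈ L)
    (m : ℕ) (hm : (m : Mk) ≠ 0)
    (y : ↥O) (hyL : (y : M) ∈ L) (hy1 : ρ y = 1) (hym : (y : M) ^ m ∈ E) : (y : M) ∈ E := by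
  classical
  obtain ⟨c, hcE, hyc⟩ := Fermat.Agent.S28.D1a O ρ hunit E hval Ek hEk L n z hspan hzL hz y hyL
  obtain ⟨b, hbE, h1b⟩ := Fermat.Agent.S28.D1a O ρ hunit E hval Ek hEk L n z hspan hzL hz 1 h1L
  have hyc' : y = ∑ i, c i * z i := Subtype.ext (by rw [hyc]; push_cast; rfl)
  have h1b' : (1 : ↥O) = ∑ i, b i * z i := Subtype.ext (by rw [h1b]; push_cast; rfl)
  -- residues of the coefficients agree
  have hcb : ∀ i, ρ (c i) = ρ (b i) := by
    have h := hz (fun i => ρ (c i) - ρ (b i))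
      (fun i => Ek.sub_mem (hEk _ (hcE i)) (hEk _ (hbE i))) (by
        have h1 := congrArg ρ hyc'
        have h2 := congrArg ρ h1b'
        rw [map_sum] at h1 h2
        simp only [map_mul] at h1 h2
        simp only [sub_mul, Finset.sum_sub_distrib]
        rw [← h1, ← h2, hy1, map_one, sub_self])
    intro i
    exact sub_eq_zero.mp (congrFun h i)
  -- a coefficient of `1` with nonzero residue
  obtain ⟨j, hj⟩ : ∃ j, ρ (b j) ≠ 0 := by
    by_contra hno
    push Not at hno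
    have h2 := congrArg ρ h1b'
    rw [map_sum, map_one] at h2
    simp only [map_mul, hno, zero_mul, Finset.sum_const_zero] at h2
    exact one_ne_zero h2
  have hbj0 : (b j : M) ≠ 0 := by
    intro h0
    apply hj
    have : b j = 0 := Subtype.ext h0
    rw [this, map_zero]
  obtain ⟨binv, hbinv⟩ : ∃ binv : ↥O, (binv : M) = (b j : M)⁻¹ := ⟨⟨_, hunit _ hj⟩, rfl⟩
  have hbb : b j * binv = 1 := Subtype.ext (by
    rw [Subring.coe_mul, hbinv, mul_inv_cancel₀ hbj0]; rfl)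
  obtain ⟨lam, hlam⟩ : ∃ lam : ↥O, lam = c j * binv := ⟨_, rfl⟩
  have hlamE : (lam : M) ∈ E := by
    rw [hlam, Subring.coe_mul, hbinv]
    exact E.mul_mem (hcE j) (E.inv_mem (hbE j))
  have hρlam : ρ lam = 1 := by
    rw [hlam, map_mul, hcb j, ← map_mul, hbb, map_one]
  have hlam0 : (lam : M) ≠ 0 := by
    intro h0
    have : lam = 0 := Subtype.ext h0
    rw [this, map_zero] at hρlam
    exact zero_ne_one hρlam
  obtain ⟨linv, hlinv⟩ : ∃ linv : ↥O, (linv : M) = (lam : M)⁻¹ :=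
    ⟨⟨_, hunit lam (by rw [hρlam]; exact one_ne_zero)⟩, rfl⟩
  have hll : lam * linv = 1 := Subtype.ext (by
    rw [Subring.coe_mul, hlinv, mul_inv_cancel₀ hlam0]; rfl)
  have hlinvE : (linv : M) ∈ E := by rw [hlinv]; exact E.inv_mem hlamE
  have hlinv0 : (linv : M) ≠ 0 := by rw [hlinv]; exact inv_ne_zero hlam0
  -- the difference
  obtain ⟨d, hd⟩ : ∃ d : Fin n → ↥O, d = fun i => c i - lam * b i := ⟨_, rfl⟩
  have hdE : ∀ i, (d i : M) ∈ E := by
    intro i
    rw [hd]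
    show (c i : M) - (lam : M) * (b i : M) ∈ E
    exact E.sub_mem (hcE i) (E.mul_mem hlamE (hbE i))
  have hρd : ∀ i, ρ (d i) = 0 := by
    intro i
    rw [hd]
    simp only [map_sub, map_mul, hρlam, one_mul, hcb i, sub_self]
  have hdj : d j = 0 := by
    rw [hd]
    simp only
    rw [hlam, mul_assoc, mul_comm binv, hbb, mul_one, sub_self]
  have hyd : y = lam + ∑ i, d i * z i := by
    rw [hd]
    simp only [sub_mul, Finset.sum_sub_distrib, mul_assoc]
    rw [← Finset.mul_sum, ← hyc', ← h1b']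
    ring
  by_cases hd0 : (fun i => (d i : M)) = 0
  · have hd0' : ∀ i, d i = 0 := fun i => Subtype.ext (congrFun hd0 i)
    rw [hyd]
    simp only [hd0', zero_mul, Finset.sum_const_zero, add_zero]
    exact hlamE
  exfalso
  obtain ⟨i₀, h0, hdiv⟩ := Fermat.Agent.S28.D1a_pivot O E hval (fun i => (d i : M)) hdE hd0
  obtain ⟨e, he⟩ : ∃ e : Fin n → ↥O, ∀ i, (e i : M) = (d i : M) / (d i₀ : M) :=
    ⟨fun i => ⟨_, hdiv i⟩, fun i => rfl⟩
  have heE : ∀ i, (e i : M) ∈ E := fun i => by rw [he]; exact E.div_mem (hdE i) (hdE i₀)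
  have hde : ∀ i, d i = d i₀ * e i := fun i => Subtype.ext (by
    rw [Subring.coe_mul, he, mul_div_cancel₀ _ h0])
  have hei₀ : e i₀ = 1 := Subtype.ext (by rw [he, div_self h0]; rfl)
  have hej : e j = 0 := Subtype.ext (by rw [he, hdj]; simp)
  obtain ⟨s, hs⟩ : ∃ s : ↥O, s = ∑ i, e i * z i := ⟨_, rfl⟩
  obtain ⟨a, ha⟩ : ∃ a : ↥O, a = d i₀ * linv := ⟨_, rfl⟩
  have haE : (a : M) ∈ E := by
    rw [ha, Subring.coe_mul]; exact E.mul_mem (hdE i₀) hlinvE
  have ha0 : (a : M) ≠ 0 := by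
    rw [ha, Subring.coe_mul]; exact mul_ne_zero h0 hlinv0
  have hρa : ρ a = 0 := by rw [ha, map_mul, hρd, zero_mul]
  have hy2 : y = lam * (1 + a * s) := by
    have h3 : ∑ i, d i * z i = d i₀ * s := by
      rw [hs, Finset.mul_sum]
      exact Finset.sum_congr rfl fun i _ => by rw [hde i, mul_assoc]
    rw [hyd, h3, ha]
    calc lam + d i₀ * s = lam + (lam * linv) * (d i₀ * s) := by rw [hll, one_mul]
      _ = lam * (1 + d i₀ * linv * s) := by ring
  obtain ⟨r, hr⟩ := one_add_pow_expand (a * s) m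
  obtain ⟨w, hw⟩ : ∃ w : ↥O, w = (m : ↥O) * s + a * s ^ 2 * r := ⟨_, rfl⟩
  have haw : a * w = y ^ m * linv ^ m - 1 := by
    have h4 : y ^ m * linv ^ m = (1 + a * s) ^ m := by
      rw [hy2, mul_pow, mul_comm (lam ^ m), mul_assoc, ← mul_pow, hll, one_pow, mul_one]
    rw [h4, hr, hw]; ring
  have hwE : (w : M) ∈ E := by
    have h5 : (w : M) = ((y : M) ^ m * (linv : M) ^ m - 1) / (a : M) := by
      rw [eq_div_iff ha0, mul_comm]
      have := congrArg (Subtype.val) haw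
      simpa using this
    rw [h5]
    exact E.div_mem (E.sub_mem (E.mul_mem hym (E.pow_mem hlinvE m)) E.one_mem) haE
  have hρw : ρ w = (m : Mk) * ρ s := by
    rw [hw, map_add, map_mul, map_mul, map_mul, hρa, zero_mul, zero_mul, add_zero, map_natCast]
  have hsEk : ρ s ∈ Ek := by
    have h6 : ρ s = ρ w / (m : Mk) := by rw [hρw, mul_div_cancel_left₀ _ hm]
    rw [h6]
    exact Ek.div_mem (hEk w hwE) (natCast_mem Ek m)
  have hfin := hz (fun i => ρ (e i) - ρ s * ρ (b i))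
    (fun i => Ek.sub_mem (hEk _ (heE i)) (Ek.mul_mem hsEk (hEk _ (hbE i)))) (by
      have h1 := congrArg ρ hs
      have h2 := congrArg ρ h1b'
      rw [map_sum] at h1 h2
      simp only [map_mul] at h1 h2
      simp only [sub_mul, Finset.sum_sub_distrib, mul_assoc]
      rw [← Finset.mul_sum, ← h1, ← h2, map_one, mul_one, sub_self])
  have hfj := congrFun hfin j
  have hfi := congrFun hfin i₀
  simp only [Pi.zero_apply, hej, hei₀, map_zero, map_one, zero_sub, neg_eq_zero,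
    mul_eq_zero] at hfj hfi
  rcases hfj with h | h
  · rw [h, zero_mul, sub_zero] at hfi
    exact one_ne_zero hfi
  · exact hj h

end Fermat.Agent.GAL.INJ
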